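import Fermat.Agent.H13.Cft.Interfaces

/-!
# P-CFT frame, row FR-SES: `LvlSesStatement`

The level cochain complex functor `lvlFunctor 𝒰` is exact on short exact sequences of
representations with smooth middle term.
-/

set_option autoImplicit false

universe u

open CategoryTheory groupCohomology

namespace Fermat.Agent.H87.Cft

open Fermat.Agent.H13.Cft

variable {k G : Type u} [CommRing k] [Group G]

/-- Finitely many levels have a common lower bound in the level system. -/
theorem exists_level_le_of_finite (𝒰 : LevelSys G) {J : Type*} [Finite J] (N : J → Subgroup G)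
    (hN : ∀ j, N j ∈ 𝒰.sets) : ∃ N' ∈ 𝒰.sets, ∀ j, N' ≤ N j := by
  classical
  have := Fintype.ofFinite J
  have key : ∀ s : Finset J, ∃ N' ∈ 𝒰.sets, ∀ j ∈ s, N' ≤ N j := by
    intro s
    induction s using Finset.induction_on with
    | empty =>
      obtain ⟨N₀, hN₀⟩ := 𝒰.nonempty
      exact ⟨N₀, hN₀, fun j hj => absurd hj (Finset.notMem_empty j)⟩
    | insert a s _ ih =>
      obtain ⟨N₁, hN₁, h₁⟩ := ih
      obtain ⟨N₂, hN₂, h₂⟩ := 𝒰.directed N₁ hN₁ (N a) (hN a)
      refine ⟨N₂, hN₂, fun j hj => ?_⟩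
      rcases Finset.mem_insert.mp hj with rfl | hj
      · exact h₂.trans inf_le_right
      · exact (h₂.trans inf_le_left).trans (h₁ j hj)
  obtain ⟨N', hN', h⟩ := key Finset.univ
  exact ⟨N', hN', fun j => h j (Finset.mem_univ j)⟩

/-- Injectivity of the level cochain map of an injective morphism. -/
theorem lvlMap_f_injective (𝒰 : LevelSys G) {A B : Rep.{u} k G} (φ : A ⟶ B)
    (hφ : Function.Injective φ.hom) (n : ℕ) :
    Function.Injective ((lvlMap 𝒰 φ).f n).hom := by
  intro x y hxy
  apply Subtype.ext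
  funext g
  apply hφ
  have := congrArg (fun z : lvlCochains 𝒰 B n => z.1 g) hxy
  exact this

/-- Exactness in the middle of the level cochain maps. -/
theorem lvlMap_f_exact (𝒰 : LevelSys G) {A B C : Rep.{u} k G} (φ : A ⟶ B) (ψ : B ⟶ C)
    (hφ : Function.Injective φ.hom)
    (hex : ∀ b : B, ψ.hom b = 0 → ∃ a : A, φ.hom a = b) (n : ℕ)
    (x : lvlCochains 𝒰 B n) (hx : ((lvlMap 𝒰 ψ).f n).hom x = 0) :
    ∃ a : lvlCochains 𝒰 A n, ((lvlMap 𝒰 φ).f n).hom a = x := by
  have hx' : ∀ g : Fin n → G, ψ.hom (x.1 g) = 0 := by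
    intro g
    have := congrArg (fun z : lvlCochains 𝒰 C n => z.1 g) hx
    exact this
  choose a ha using fun g => hex (x.1 g) (hx' g)
  obtain ⟨N, hN, hlev⟩ := x.2
  refine ⟨⟨a, N, hN, fun g u hu => hφ ?_, fun g s hs => hφ ?_⟩, ?_⟩
  · rw [ha, ha]
    exact hlev.1 g u hu
  · rw [Rep.hom_comm_apply, ha]
    exact hlev.2 g s hs
  · apply Subtype.ext
    funext g
    exact ha g

/-- Surjectivity of the level cochain map of a surjective morphism with smooth source. -/
theorem lvlMap_f_surjective (𝒰 : LevelSys G) {B C : Rep.{u} k G} (ψ : B ⟶ C)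
    (hψ : Function.Surjective ψ.hom) (hsm : IsSmooth 𝒰 B) (n : ℕ) :
    Function.Surjective ((lvlMap 𝒰 ψ).f n).hom := by
  classical
  intro y
  obtain ⟨N, hN, hlev⟩ := y.2
  have : N.Normal := 𝒰.normal N hN
  have : N.FiniteIndex := 𝒰.finiteIndex N hN
  have : Finite (G ⧸ N) := Subgroup.finite_quotient_of_finiteIndex
  -- representatives
  let r : (Fin n → G ⧸ N) → (Fin n → G) := fun q i => Quotient.out (q i)
  let q : (Fin n → G) → (Fin n → G ⧸ N) := fun g i => (g i : G ⧸ N)
  have hq : ∀ g : Fin n → G, y.1 (r (q g)) = y.1 g := by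
    intro g
    have h1 : g = r (q g) * fun i => (r (q g) i)⁻¹ * g i := by
      funext i
      simp
    have h2 : ∀ i, (r (q g) i)⁻¹ * g i ∈ N := by
      intro i
      rw [← QuotientGroup.eq]
      exact Quotient.out_eq _
    conv_rhs => rw [h1]
    exact (hlev.1 _ _ h2).symm
  -- lift the finitely many values
  let b₀ : (Fin n → G ⧸ N) → B := fun c => Function.surjInv hψ (y.1 (r c))
  have hb₀ : ∀ c, ψ.hom (b₀ c) = y.1 (r c) := fun c => Function.surjInv_eq hψ _
  choose L hL hLfix using fun c => hsm (b₀ c)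
  obtain ⟨N₁, hN₁, hN₁le⟩ := exists_level_le_of_finite 𝒰 L hL
  obtain ⟨N', hN', hN'le⟩ := 𝒰.directed N hN N₁ hN₁
  have hqu : ∀ (g u : Fin n → G), (∀ i, u i ∈ N') → q (g * u) = q g := by
    intro g u hu
    funext i
    show ((g i * u i : G) : G ⧸ N) = (g i : G ⧸ N)
    rw [QuotientGroup.eq]
    have : (g i * u i)⁻¹ * g i = (u i)⁻¹ := by group
    rw [this]
    exact N.inv_mem ((hN'le.trans inf_le_left) (hu i))
  refine ⟨⟨fun g => b₀ (q g), N', hN', fun g u hu => ?_, fun g s hs => ?_⟩, ?_⟩
  · show b₀ (q (g * u)) = b₀ (q g)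
    rw [hqu g u hu]
  · exact hLfix (q g) s (hN₁le (q g) ((hN'le.trans inf_le_right) hs))
  · apply Subtype.ext
    funext g
    show ψ.hom (b₀ (q g)) = y.1 g
    rw [hb₀, hq]

/-- **[F-SES]** The level complex functor is exact on short exact sequences with smooth middle
term. -/
theorem lvlSes : LvlSesStatement.{u} := by
  intro k G _ _ 𝒰 X hX hsm
  refine HomologicalComplex.shortExact_of_degreewise_shortExact _ fun i => ?_
  have hinj : Function.Injective X.f.hom := by
    have := hX.mono_f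
    exact (Rep.mono_iff_injective X.f).mp this
  have hsurj : Function.Surjective X.g.hom := by
    have := hX.epi_g
    exact (Rep.epi_iff_surjective X.g).mp this
  have hex : LinearMap.range X.f.hom.toLinearMap = LinearMap.ker X.g.hom.toLinearMap :=
    (hX.exact.map (forget₂ (Rep k G) (ModuleCat k))).moduleCat_range_eq_ker
  have hex' : ∀ b : X.X₂, X.g.hom b = 0 → ∃ a : X.X₁, X.f.hom a = b := by
    intro b hb
    have h1 : b ∈ LinearMap.ker X.g.hom.toLinearMap := hb
    rw [← hex] at h1
    exact h1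
  refine { exact := ?_, mono_f := ?_, epi_g := ?_ }
  · rw [ShortComplex.moduleCat_exact_iff]
    intro x hx
    exact lvlMap_f_exact 𝒰 X.f X.g hinj hex' i x hx
  · rw [ModuleCat.mono_iff_injective]
    exact lvlMap_f_injective 𝒰 X.f hinj i
  · rw [ModuleCat.epi_iff_surjective]
    exact lvlMap_f_surjective 𝒰 X.g hsurj hsm i

end Fermat.Agent.H87.Cft
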