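import Fermat.Agent.H54.Cft.N6Interfaces
import Fermat.Agent.H54.Cft.KummerLevel
import Fermat.Agent.H54.Cft.KummerCharFinite
import Fermat.Agent.H57.CFT.H90Lvl
import Fermat.Agent.H96.Cft.KummerDivisible
import Fermat.Agent.H73.KummerRamKD2
import Fermat.Agent.H38.Cft.SelmerStruct

/-!
# P-CFT / [N6-P]: the `p`-torsion of `H¹(G_S(L), E_S)` injects into `Cl_T(L)[p]`

`esPTorsionBound : Fermat.Agent.H54.Cft.ESPTorsionBoundStatement`.
-/

set_option autoImplicit false

noncomputable section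

open IsDedekindDomain NumberField

namespace Fermat.Agent.H87.Cft

open Fermat.Agent.H54.Cft
open Fermat.Agent.H76.Cft (ES QS IsPlaceOutside)

/-- The inclusion `Lˣ → ℚ̄ˣ`. -/
def unitsIncl (L : IntermediateField ℚ Qbar) : (↥L)ˣ →* Qbarˣ :=
  Units.map (L.val : ↥L →* Qbar)

@[simp] theorem coe_unitsIncl (L : IntermediateField ℚ Qbar) (a : (↥L)ˣ) :
    ((unitsIncl L a : Qbarˣ) : Qbar) = ((a : ↥L) : Qbar) := rfl

theorem galU_unitsIncl (L : IntermediateField ℚ Qbar) (a : (↥L)ˣ) (g : GalL L) :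
    galU (g : GQ) (unitsIncl L a) = unitsIncl L a := by
  apply Units.ext
  rw [coe_galU, coe_unitsIncl]
  exact g.2 ⟨((a : ↥L) : Qbar), (a : ↥L).2⟩

/-- **Hilbert 90** for `S`-level cocycles. -/
theorem exists_h90 {S : Finset Nat.Primes} {L : IntermediateField ℚ Qbar}
    {c : GalL L → Qbarˣ} (hc : IsESCocycle S L c) :
    ∃ b : Qbarˣ, ∀ g : GalL L, c g = galU (g : GQ) b / b := by
  obtain ⟨hcoc, ⟨F, hF, hlvl⟩, -⟩ := hc
  have : FiniteDimensional ℚ F := hF.1
  obtain ⟨N, hN, hNle⟩ := Fermat.Agent.H57.CFT.exists_lvlE_le L F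
  exact Fermat.Agent.H57.CFT.h90Lvl L c ⟨N, hN, fun g n hn => hlvl g n (hNle hn)⟩ hcoc

/-- The Hilbert 90 element of an `S`-level cocycle is fixed by `G_F ∩ G_L`, `F` a level. -/
theorem exists_level_fix {S : Finset Nat.Primes} {L : IntermediateField ℚ Qbar}
    {c : GalL L → Qbarˣ} (hc : IsESCocycle S L c) {b : Qbarˣ}
    (hb : ∀ g : GalL L, c g = galU (g : GQ) b / b) :
    ∃ F : IntermediateField ℚ Qbar, F.IsUnramifiedOutside S ∧
      ∀ σ : GQ, σ ∈ F.fixingSubgroup → σ ∈ L.fixingSubgroup → σ (b : Qbar) = b := by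
  obtain ⟨-, ⟨F, hF, hlvl⟩, -⟩ := hc
  refine ⟨F, hF, fun σ hσF hσL => ?_⟩
  have h1 : c 1 = 1 := by
    rw [hb 1]
    have : galU ((1 : GalL L) : GQ) b = b := by
      apply Units.ext
      rfl
    rw [this, div_self']
  have h2 : c ⟨σ, hσL⟩ = 1 := by
    have := hlvl 1 ⟨σ, hσL⟩ hσF
    rw [one_mul] at this
    rw [this, h1]
  rw [hb ⟨σ, hσL⟩, div_eq_one] at h2
  have := congrArg (fun x : Qbarˣ => (x : Qbar)) h2
  exact this

/-- An element of `ℚ̄` fixed by `G_L` lies in `L`. -/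
theorem mem_of_forall_fixed (L : IntermediateField ℚ Qbar) {x : Qbar}
    (hx : ∀ g : GalL L, (g : GQ) x = x) : x ∈ L := by
  have := Fermat.Agent.H57.CFT.isGalois_qb
  rw [← InfiniteGalois.fixedField_fixingSubgroup L, IntermediateField.mem_fixedField_iff]
  intro g hg
  exact hx ⟨g, hg⟩

/-- A unit of `ℚ̄` fixed by `G_L` is a unit of `L`. -/
theorem exists_unitsIncl_eq (L : IntermediateField ℚ Qbar) {x : Qbarˣ}
    (hx : ∀ g : GalL L, galU (g : GQ) x = x) : ∃ a : (↥L)ˣ, unitsIncl L a = x := by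
  have h1 : (x : Qbar) ∈ L := mem_of_forall_fixed L fun g => by
    have := congrArg (fun y : Qbarˣ => (y : Qbar)) (hx g)
    exact this
  have h2 : (⟨(x : Qbar), h1⟩ : ↥L) ≠ 0 := by
    intro h
    have := congrArg (fun y : ↥L => (y : Qbar)) h
    exact x.ne_zero this
  exact ⟨Units.mk0 _ h2, Units.ext rfl⟩

/-- A prime of `L` outside `primesOverS` lies under a place of `ℚ̄` outside `S`. -/
theorem exists_place_outside {S : Finset Nat.Primes} (L : IntermediateField ℚ Qbar)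
    [NumberField L] (v : HeightOneSpectrum (𝓞 L)) (hv : v ∉ primesOverS S L) :
    ∃ (q : Nat.Primes) (A : ValuationSubring Qbar), q ∉ S ∧ A.LiesOverPrime (q : ℕ) ∧
      LiesOverHeightOne L A v := by
  obtain ⟨ℓ, hℓ, hℓv⟩ := Fermat.Agent.H73.KD2.exists_prime_mem v
  obtain ⟨A, hA, hAv⟩ := exists_place_over_heightOne L v hℓv
  refine ⟨⟨ℓ, hℓ⟩, A, fun hq => hv ⟨⟨ℓ, hℓ⟩, hq, hℓv⟩, hA, hAv⟩

/-- A place of `ℚ̄` outside `S` lies over a prime of `L` outside `primesOverS`. -/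
theorem exists_heightOne_outside {S : Finset Nat.Primes} (L : IntermediateField ℚ Qbar)
    [NumberField L] {A : ValuationSubring Qbar} (hA : IsPlaceOutside S A) :
    ∃ v : HeightOneSpectrum (𝓞 L), v ∉ primesOverS S L ∧ LiesOverHeightOne L A v := by
  obtain ⟨q, hq, hqA⟩ := hA
  obtain ⟨v, hAv, -⟩ := exists_heightOne_under L A q.2 hqA
  refine ⟨v, ?_, hAv⟩
  rintro ⟨q', hq'S, hq'v⟩
  have hA' : A.LiesOverPrime (q' : ℕ) := by
    have := hAv _ hq'v
    simpa [ValuationSubring.LiesOverPrime] using this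
  have hqq : (q : ℕ) = (q' : ℕ) := liesOverPrime_unique A q.2 q'.2 hqA hA'
  have : q = q' := Subtype.ext hqq
  exact hq (this ▸ hq'S)

/-- **The Selmer property**: if `a u = b ^ p` with `a ∈ Lˣ`, `u ∈ E_S` and `b` fixed by
`G_F ∩ G_L` for a field `F` unramified outside `S ∋ p`, then `p ∣ ord_v a` for all primes `v` of
`L` not over `S`. -/
theorem ordDvdAt_of_datum (p : ℕ) [Fact p.Prime] (S : Finset Nat.Primes)
    (hpS : ExtCitation.pPrime p ∈ S) (L : IntermediateField ℚ Qbar) [NumberField L]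
    (hroots : ∀ ω : Qbar, ω ^ p = 1 → ω ∈ L) {b u : Qbarˣ} {a : (↥L)ˣ}
    (hu : u ∈ ES S) (hab : unitsIncl L a * u = b ^ p)
    (hfix : ∃ F : IntermediateField ℚ Qbar, F.IsUnramifiedOutside S ∧
      ∀ σ : GQ, σ ∈ F.fixingSubgroup → σ ∈ L.fixingSubgroup → σ (b : Qbar) = b)
    (v : HeightOneSpectrum (𝓞 L)) (hv : v ∉ primesOverS S L) : OrdDvdAt p v a := by
  have hp : p.Prime := Fact.out
  obtain ⟨F, hF, hbF⟩ := hfix
  -- a `p`-th root of `u`
  obtain ⟨r, hr⟩ := IsAlgClosed.exists_pow_nat_eq (u : Qbar) hp.pos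
  have hr0 : r ≠ 0 := by
    rintro rfl
    rw [zero_pow hp.ne_zero] at hr
    exact u.ne_zero hr.symm
  have hrES : Units.mk0 r hr0 ∈ ES S :=
    Fermat.Agent.H96.Cft.kummerDivisible p S hpS u (Units.mk0 r hr0)
      (Units.ext (by simpa using hr)) hu
  -- `α = b / r`
  have hα : ((b : Qbar) / r) ^ p = (((a : (↥L)ˣ) : ↥L) : Qbar) := by
    have h1 := congrArg (fun x : Qbarˣ => (x : Qbar)) hab
    simp only [Units.val_mul, coe_unitsIncl, Units.val_pow_eq_pow_val] at h1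
    rw [div_pow, hr, ← h1, mul_div_assoc, div_self u.ne_zero, mul_one]
  obtain ⟨q, A, hq, hA, hAv⟩ := exists_place_outside L v hv
  refine Fermat.Agent.H73.KD2.kummerRam p L hroots _ a hα A v hAv (fun σ hσ hσL => ?_)
  have hσr : σ r = r := Fermat.Agent.H96.Cft.apply_eq_of_mem_QS hq hA hσ hrES.1
  rw [map_div₀, hbF σ (hF.2 q hq A hA hσ) hσL, hσr]

/-- `T`-units of `L` are `S`-units of `ℚ_S` (`T` the primes of `L` over `S`, `L` unramified
outside `S`). -/
theorem unitsIncl_mem_ES {S : Finset Nat.Primes} (L : IntermediateField ℚ Qbar)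
    [NumberField L] (hL : L.IsUnramifiedOutside S) (hT : (primesOverS S L).Finite)
    {w : (↥L)ˣ} (hw : w ∈ Fermat.Agent.H43.Cft.SUnits L (primesOverSFinset S L hT)) :
    unitsIncl L w ∈ ES S := by
  have hLQ : L ≤ QS S :=
    le_iSup (fun F : {F : IntermediateField ℚ Qbar // F.IsUnramifiedOutside S} => F.1) ⟨L, hL⟩
  refine ⟨hLQ (w : ↥L).2, fun A hA => ?_⟩
  obtain ⟨v, hv, hAv⟩ := exists_heightOne_outside L hA
  have hvT : v ∉ primesOverSFinset S L hT := by
    unfold primesOverSFinset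
    rw [Set.Finite.mem_toFinset]
    exact hv
  have h1 : v.valuation L ((w : ↥L)) = 1 := hw v (by simpa using hvT)
  have h2 : A.valuation (((w : ↥L)) : Qbar) = 1 :=
    Fermat.Agent.H73.KD2.valuation_eq_one_of_valuation_eq_one hAv h1
  constructor
  · rw [← A.valuation_le_one_iff, coe_unitsIncl, h2]
  · rw [← A.valuation_le_one_iff, Units.val_inv_eq_inv_val, map_inv₀, coe_unitsIncl, h2, inv_one]

/-- The data attached to a `p`-torsion class of `H¹(G_S(L), E_S)`: `c g = g b / b`,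
`a u = b ^ p` with `u ∈ E_S`, `a ∈ Lˣ`, and `b` is fixed by `G_F ∩ G_L` for a level `F`. -/
def IsPDatum (p : ℕ) (S : Finset Nat.Primes) (L : IntermediateField ℚ Qbar)
    (c : GalL L → Qbarˣ) (b u : Qbarˣ) (a : (↥L)ˣ) : Prop :=
  (∀ g : GalL L, c g = galU (g : GQ) b / b) ∧ u ∈ ES S ∧ unitsIncl L a * u = b ^ p ∧
  ∃ F : IntermediateField ℚ Qbar, F.IsUnramifiedOutside S ∧
    ∀ σ : GQ, σ ∈ F.fixingSubgroup → σ ∈ L.fixingSubgroup → σ (b : Qbar) = b

theorem exists_pDatum (p : ℕ) (S : Finset Nat.Primes) (L : IntermediateField ℚ Qbar)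
    {c : GalL L → Qbarˣ} (hc : IsESCocycle S L c) (hcp : IsESCoboundary S L (c ^ p)) :
    ∃ (b u : Qbarˣ) (a : (↥L)ˣ), IsPDatum p S L c b u a := by
  obtain ⟨b, hb⟩ := exists_h90 hc
  obtain ⟨u, hu, hcu⟩ := hcp
  have hfix : ∀ g : GalL L, galU (g : GQ) (b ^ p / u) = b ^ p / u := by
    intro g
    have h1 := hcu g
    rw [Pi.pow_apply, hb g, div_pow, div_eq_div_iff_mul_eq_mul] at h1
    rw [map_div, map_pow, div_eq_div_iff_mul_eq_mul, h1, mul_comm]
  obtain ⟨a, ha⟩ := exists_unitsIncl_eq L hfix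
  refine ⟨b, u, a, hb, hu, ?_, exists_level_fix hc hb⟩
  rw [ha, div_mul_cancel]

/-- Two `p`-torsion classes with the same Selmer class differ by a coboundary. -/
theorem coboundary_of_selmer_rel (p : ℕ) [Fact p.Prime] (S : Finset Nat.Primes)
    (hpS : ExtCitation.pPrime p ∈ S) (L : IntermediateField ℚ Qbar) [NumberField L]
    (hL : L.IsUnramifiedOutside S) (hT : (primesOverS S L).Finite)
    {c c' : GalL L → Qbarˣ} {b u b' u' : Qbarˣ} {a a' : (↥L)ˣ}
    (hd : IsPDatum p S L c b u a) (hd' : IsPDatum p S L c' b' u' a')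
    (h : ∃ w ∈ Fermat.Agent.H43.Cft.SUnits L (primesOverSFinset S L hT),
      ∃ y : (↥L)ˣ, a = a' * (w * y ^ p)) :
    IsESCoboundary S L (c * c'⁻¹) := by
  obtain ⟨hb, hu, hab, -⟩ := hd
  obtain ⟨hb', hu', hab', -⟩ := hd'
  obtain ⟨w, hw, y, hay⟩ := h
  set t : Qbarˣ := b / (b' * unitsIncl L y) with ht
  have htp : t ^ p = unitsIncl L w * u / u' := by
    rw [ht, div_pow, mul_pow, ← hab, ← hab', hay, map_mul, map_mul, map_pow,
      div_eq_div_iff_mul_eq_mul]
    simp only [mul_assoc, mul_comm, mul_left_comm]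
  have htES : t ∈ ES S :=
    Fermat.Agent.H96.Cft.kummerDivisible p S hpS _ t htp
      ((ES S).div_mem ((ES S).mul_mem (unitsIncl_mem_ES L hL hT hw) hu) hu')
  refine ⟨t, htES, fun g => ?_⟩
  rw [Pi.mul_apply, Pi.inv_apply, hb g, hb' g, ht, map_div, map_mul, galU_unitsIncl,
    inv_div, div_mul_div_comm, div_div_div_eq, div_eq_div_iff_mul_eq_mul]
  simp only [mul_assoc, mul_comm, mul_left_comm]

/-- **[N6-P]** The `p`-torsion of `H¹(G_S(L), E_S)` has at most `#Cl_T(L)[p]` elements. -/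
theorem esPTorsionBound : ESPTorsionBoundStatement := by
  classical
  intro p _ S hpS L _ hL hroots hT X hX hXinj
  have hp : p.Prime := Fact.out
  have hdat : ∀ c : {c // c ∈ X}, ∃ (b u : Qbarˣ) (a : (↥L)ˣ), IsPDatum p S L c.1 b u a :=
    fun c => exists_pDatum p S L (hX c.1 c.2).1 (hX c.1 c.2).2
  choose b u a hbua using hdat
  have hsel : ∀ c : {c // c ∈ X},
      a c ∈ Fermat.Agent.H38.Cft.selmerV L (primesOverSFinset S L hT) p := by
    intro c
    rw [Fermat.Agent.H38.Cft.mem_selmerV_iff]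
    intro v hv
    have hv' : v ∉ primesOverS S L := by
      intro h
      apply hv
      unfold primesOverSFinset
      rw [Set.Finite.mem_toFinset]
      exact h
    obtain ⟨-, hu, hab, hfix⟩ := hbua c
    exact ordDvdAt_of_datum p S hpS L hroots hu hab hfix v hv'
  let f : {c // c ∈ X} → {x : ClT L (primesOverSFinset S L hT) // x ^ p = 1} := fun c =>
    ⟨Fermat.Agent.H38.Cft.selmerClass L (primesOverSFinset S L hT) hp.ne_zero ⟨a c, hsel c⟩,
      Fermat.Agent.H38.Cft.selmerClass_pow L (primesOverSFinset S L hT) hp.ne_zero _⟩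
  have hf : Function.Injective f := by
    intro c c' hcc
    have h1 : Fermat.Agent.H38.Cft.selmerClass L (primesOverSFinset S L hT) hp.ne_zero
        ⟨a c, hsel c⟩ =
        Fermat.Agent.H38.Cft.selmerClass L (primesOverSFinset S L hT) hp.ne_zero
          ⟨a c', hsel c'⟩ := congrArg Subtype.val hcc
    rw [Fermat.Agent.H38.Cft.selmerClass_eq_iff] at h1
    apply Subtype.ext
    exact hXinj c.1 c.2 c'.1 c'.2
      (coboundary_of_selmer_rel p S hpS L hL hT (hbua c) (hbua c') h1)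
  have h2 := Nat.card_le_card_of_injective f hf
  rw [Nat.card_eq_fintype_card, Fintype.card_coe] at h2
  exact h2

end Fermat.Agent.H87.Cft

end
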